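import Mathlib

/-!
# S16 (A1): abstract cardinality criterion for a cyclic quotient `T ⧸ I`

`T` a commutative ring generated (as a ring) by elements `gens i`, and `I` the ideal generated by
the `gens i - a i` for integers `a i`.  Then `T ⧸ I` is a quotient of `ℤ`, and its cardinality is
pinned down by the existence / non-existence of ring homomorphisms `T →+* ZMod M` sending
`gens i` to `a i`.
-/

set_option autoImplicit false

namespace Fermat.Agent.S16.Alg.AbstractCard

variable {T : Type*} [CommRing T] {ι : Type*}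

/-- The predicate: there is an "Eisenstein" ring homomorphism to `ZMod M`. -/
def HasEisHom (gens : ι → T) (a : ι → ℤ) (M : ℕ) : Prop :=
  ∃ φ : T →+* ZMod M, ∀ i, φ (gens i) = (a i : ZMod M)

/-- The ideal generated by the `gens i - a i`. -/
def eisIdeal (gens : ι → T) (a : ι → ℤ) : Ideal T :=
  Ideal.span (Set.range fun i => gens i - ((a i : ℤ) : T))

theorem gens_sub_mem (gens : ι → T) (a : ι → ℤ) (i : ι) :
    gens i - ((a i : ℤ) : T) ∈ eisIdeal gens a :=
  Ideal.subset_span ⟨i, rfl⟩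

/-- Every element of `T` is congruent to an integer modulo the Eisenstein ideal. -/
theorem exists_int_mk_eq (gens : ι → T) (a : ι → ℤ)
    (hgen : Algebra.adjoin ℤ (Set.range gens) = ⊤) (t : T) :
    ∃ k : ℤ, Ideal.Quotient.mk (eisIdeal gens a) t = (k : T ⧸ eisIdeal gens a) := by
  have ht : t ∈ Algebra.adjoin ℤ (Set.range gens) := by rw [hgen]; exact Algebra.mem_top
  induction ht using Algebra.adjoin_induction with
  | mem x hx =>
    obtain ⟨i, rfl⟩ := hx
    refine ⟨a i, ?_⟩
    have h := gens_sub_mem gens a i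
    rw [← Ideal.Quotient.eq_zero_iff_mem, map_sub, sub_eq_zero] at h
    rw [h, map_intCast]
  | algebraMap r =>
    exact ⟨r, by simp⟩
  | add x y _ _ hx hy =>
    obtain ⟨k, hk⟩ := hx
    obtain ⟨l, hl⟩ := hy
    exact ⟨k + l, by rw [map_add, hk, hl, Int.cast_add]⟩
  | mul x y _ _ hx hy =>
    obtain ⟨k, hk⟩ := hx
    obtain ⟨l, hl⟩ := hy
    exact ⟨k * l, by rw [map_mul, hk, hl, Int.cast_mul]⟩

theorem intCast_surjective (gens : ι → T) (a : ι → ℤ)
    (hgen : Algebra.adjoin ℤ (Set.range gens) = ⊤) :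
    Function.Surjective (Int.castRingHom (T ⧸ eisIdeal gens a)) := by
  intro x
  obtain ⟨t, rfl⟩ := Ideal.Quotient.mk_surjective x
  obtain ⟨k, hk⟩ := exists_int_mk_eq gens a hgen t
  exact ⟨k, by rw [hk]; rfl⟩

/-- `ZMod (ringChar R) ≃+* R` for the quotient `R = T ⧸ eisIdeal`. -/
noncomputable def zmodEquiv (gens : ι → T) (a : ι → ℤ)
    (hgen : Algebra.adjoin ℤ (Set.range gens) = ⊤) :
    ZMod (ringChar (T ⧸ eisIdeal gens a)) ≃+* (T ⧸ eisIdeal gens a) :=
  have : CharP (T ⧸ eisIdeal gens a) (ringChar (T ⧸ eisIdeal gens a)) := ringChar.charP _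
  RingEquiv.ofBijective (ZMod.castHom (dvd_refl _) (T ⧸ eisIdeal gens a))
    ⟨ZMod.castHom_injective _, fun x => by
      obtain ⟨k, hk⟩ := intCast_surjective gens a hgen x
      refine ⟨(k : ZMod _), ?_⟩
      rw [map_intCast]
      exact hk⟩

/-- The cardinality of the quotient is its characteristic. -/
theorem natCard_quotient_eq_ringChar (gens : ι → T) (a : ι → ℤ)
    (hgen : Algebra.adjoin ℤ (Set.range gens) = ⊤) :
    Nat.card (T ⧸ eisIdeal gens a) = ringChar (T ⧸ eisIdeal gens a) := by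
  rw [← Nat.card_congr (zmodEquiv gens a hgen).toEquiv, Nat.card_zmod]

/-- An Eisenstein hom kills the Eisenstein ideal. -/
theorem eisIdeal_le_ker (gens : ι → T) (a : ι → ℤ) {M : ℕ} (φ : T →+* ZMod M)
    (hφ : ∀ i, φ (gens i) = (a i : ZMod M)) : eisIdeal gens a ≤ RingHom.ker φ := by
  rw [eisIdeal, Ideal.span_le]
  rintro _ ⟨i, rfl⟩
  rw [SetLike.mem_coe, RingHom.mem_ker, map_sub, hφ, map_intCast, sub_self]

/-- `HasEisHom M` implies that `M` divides the characteristic of the quotient. -/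
theorem dvd_of_hasEisHom (gens : ι → T) (a : ι → ℤ) {M : ℕ} (h : HasEisHom gens a M) :
    M ∣ ringChar (T ⧸ eisIdeal gens a) := by
  obtain ⟨φ, hφ⟩ := h
  have : CharP (T ⧸ eisIdeal gens a) (ringChar (T ⧸ eisIdeal gens a)) := ringChar.charP _
  let ψ : (T ⧸ eisIdeal gens a) →+* ZMod M :=
    Ideal.Quotient.lift _ φ (fun x hx => eisIdeal_le_ker gens a φ hφ hx)
  have h0 : ((ringChar (T ⧸ eisIdeal gens a) : ℕ) : ZMod M) = 0 := by
    have h1 : ((ringChar (T ⧸ eisIdeal gens a) : ℕ) : T ⧸ eisIdeal gens a) = 0 :=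
      CharP.cast_eq_zero _ _
    have h2 := congrArg ψ h1
    rwa [map_natCast, map_zero] at h2
  exact (ZMod.natCast_eq_zero_iff _ _).mp h0

/-- Conversely, if `M` divides the characteristic of the quotient there is an Eisenstein hom. -/
theorem hasEisHom_of_dvd (gens : ι → T) (a : ι → ℤ)
    (hgen : Algebra.adjoin ℤ (Set.range gens) = ⊤) {M : ℕ}
    (hM : M ∣ ringChar (T ⧸ eisIdeal gens a)) : HasEisHom gens a M := by
  refine ⟨((ZMod.castHom hM (ZMod M)).comp (zmodEquiv gens a hgen).symm.toRingHom).comp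
    (Ideal.Quotient.mk (eisIdeal gens a)), fun i => ?_⟩
  have h := gens_sub_mem gens a i
  rw [← Ideal.Quotient.eq_zero_iff_mem, map_sub, sub_eq_zero, map_intCast] at h
  simp only [RingHom.coe_comp, Function.comp_apply, h, map_intCast]

theorem hasEisHom_iff_dvd (gens : ι → T) (a : ι → ℤ)
    (hgen : Algebra.adjoin ℤ (Set.range gens) = ⊤) (M : ℕ) :
    HasEisHom gens a M ↔ M ∣ ringChar (T ⧸ eisIdeal gens a) :=
  ⟨dvd_of_hasEisHom gens a, hasEisHom_of_dvd gens a hgen⟩

/-- **Cardinality criterion.**  If there is an Eisenstein hom to `ZMod n` (lower bound) and every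
`M ≥ 1` that has an Eisenstein hom divides `n` (upper bound), then `T ⧸ I` has exactly `n`
elements. -/
theorem natCard_quotient_eq (gens : ι → T) (a : ι → ℤ)
    (hgen : Algebra.adjoin ℤ (Set.range gens) = ⊤) {n : ℕ} (hn : 1 ≤ n)
    (hlow : HasEisHom gens a n)
    (hup : ∀ M : ℕ, 1 ≤ M → HasEisHom gens a M → M ∣ n) :
    Nat.card (T ⧸ eisIdeal gens a) = n := by
  rw [natCard_quotient_eq_ringChar gens a hgen]
  set m := ringChar (T ⧸ eisIdeal gens a) with hm
  have h1 : n ∣ m := dvd_of_hasEisHom gens a hlow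
  rcases Nat.eq_zero_or_pos m with h0 | hpos
  · exfalso
    have h2 : n + 1 ∣ n := hup (n + 1) (Nat.le_add_left 1 n)
      (hasEisHom_of_dvd gens a hgen (by rw [← hm, h0]; exact dvd_zero _))
    have := Nat.le_of_dvd hn h2
    omega
  · have h2 : m ∣ n := hup m hpos (hasEisHom_of_dvd gens a hgen (dvd_refl _))
    exact Nat.dvd_antisymm h2 h1

/-- Variant with an arbitrary ideal `I` known to equal the Eisenstein ideal. -/
theorem natCard_quotient_eq' (I : Ideal T) (gens : ι → T) (a : ι → ℤ)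
    (hI : I = eisIdeal gens a)
    (hgen : Algebra.adjoin ℤ (Set.range gens) = ⊤) {n : ℕ} (hn : 1 ≤ n)
    (hlow : HasEisHom gens a n)
    (hup : ∀ M : ℕ, 1 ≤ M → HasEisHom gens a M → M ∣ n) :
    Nat.card (T ⧸ I) = n := by
  subst hI
  exact natCard_quotient_eq gens a hgen hn hlow hup

end Fermat.Agent.S16.Alg.AbstractCard
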