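import Fermat.Prelude.Def_CuspForm_HeckeLocal
import Fermat.Prelude.Def_CuspForm_HeckeEvalForms
import Fermat.Prelude.Def_HeckeGalois_EichlerShimura
import Fermat.Prelude.Def_ModularCurve_ModularUnit
import Fermat.Agent.S16.Alg.AbstractCard

/-!
# S16 (A2): dictionary between the frozen statement and the abstract cardinality criterion
-/

set_option autoImplicit false

open ModularCurve CuspForm

namespace Fermat.Agent.S16.Alg.Dictionary

open Fermat.Agent.S16.Alg.AbstractCard

noncomputable section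

/-! ### Kernel of evaluation at an integer point -/

section Ker

variable {σ : Type*}

theorem mk_eq_C_aeval (a : σ → ℤ) (t : MvPolynomial σ ℤ) :
    Ideal.Quotient.mk (Ideal.span (Set.range fun i => (MvPolynomial.X i - MvPolynomial.C (a i) :
      MvPolynomial σ ℤ))) t =
    Ideal.Quotient.mk (Ideal.span (Set.range fun i => (MvPolynomial.X i - MvPolynomial.C (a i) :
      MvPolynomial σ ℤ))) (MvPolynomial.C (MvPolynomial.aeval a t)) := by
  induction t using MvPolynomial.induction_on with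
  | C r => simp
  | add p q hp hq => rw [map_add, hp, hq, ← map_add, ← map_add, ← map_add]
  | mul_X p i hp =>
    rw [map_mul, hp, map_mul, MvPolynomial.aeval_X, map_mul, map_mul]
    congr 1
    rw [Ideal.Quotient.eq]
    exact Ideal.subset_span ⟨i, rfl⟩

theorem ker_aeval_eq_span (a : σ → ℤ) :
    RingHom.ker (MvPolynomial.aeval (R := ℤ) a) =
      Ideal.span (Set.range fun i => (MvPolynomial.X i - MvPolynomial.C (a i) :
        MvPolynomial σ ℤ)) := by
  apply le_antisymm
  · intro t ht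
    rw [RingHom.mem_ker] at ht
    rw [← Ideal.Quotient.eq_zero_iff_mem, mk_eq_C_aeval, ht, map_zero, map_zero]
  · rw [Ideal.span_le]
    rintro _ ⟨i, rfl⟩
    rw [SetLike.mem_coe, RingHom.mem_ker, map_sub, MvPolynomial.aeval_X, MvPolynomial.aeval_C]
    simp

end Ker

variable (p : ℕ) [Fact p.Prime]

/-- The composite `HeckeAlg → 𝕋(lattice)` of the statement. -/
def evalHom : HeckeAlg →+* ↥(heckeLatticeAlgebra p ∅) :=
  (latticeRestrictHom p ∅).toRingHom.comp (heckeEvalForms p 2)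

/-- The generators of the lattice Hecke algebra: images of the `heckeGen ℓ`. -/
def tGen (ℓ : Nat.Primes) : ↥(heckeLatticeAlgebra p ∅) :=
  latticeRestrictHom p ∅ (heckeFormsGen p 2 ℓ)

theorem evalHom_heckeGen (ℓ : Nat.Primes) : evalHom p (heckeGen ℓ) = tGen p ℓ := by
  show (latticeRestrictHom p ∅) (heckeEvalForms p 2 (heckeGen ℓ)) = _
  rw [heckeEvalForms_heckeGen]
  rfl

theorem evalHom_C (b : ℤ) : evalHom p (MvPolynomial.C b) = (b : ↥(heckeLatticeAlgebra p ∅)) := by
  show (latticeRestrictHom p ∅) (heckeEvalForms p 2 (MvPolynomial.C b)) = _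
  rw [heckeEvalForms_C]
  simp

theorem heckeEvalForms_surjective (N : ℕ) [NeZero N] (k : ℤ) :
    Function.Surjective (heckeEvalForms N k) := by
  rintro ⟨t, ht⟩
  induction ht using Algebra.adjoin_induction with
  | mem x hx =>
    rcases hx with ⟨ℓ, hℓ, hℓN, -, rfl⟩ | ⟨q, hqN, hq, -, rfl⟩
    · refine ⟨heckeGen (⟨ℓ, hℓ⟩ : Nat.Primes), ?_⟩
      rw [heckeEvalForms_heckeGen_of_not_dvd (ℓ := (⟨ℓ, hℓ⟩ : Nat.Primes)) hℓN]
      rfl
    · refine ⟨heckeGen (⟨q, hq⟩ : Nat.Primes), ?_⟩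
      rw [heckeEvalForms_heckeGen_of_dvd (q := (⟨q, hq⟩ : Nat.Primes)) hqN]
      rfl
  | algebraMap r =>
    exact ⟨MvPolynomial.C r, by rw [heckeEvalForms_C]; rfl⟩
  | add x y hx hy ihx ihy =>
    obtain ⟨P, hP⟩ := ihx
    obtain ⟨Q, hQ⟩ := ihy
    exact ⟨P + Q, by rw [map_add, hP, hQ]; rfl⟩
  | mul x y hx hy ihx ihy =>
    obtain ⟨P, hP⟩ := ihx
    obtain ⟨Q, hQ⟩ := ihy
    exact ⟨P * Q, by rw [map_mul, hP, hQ]; rfl⟩

theorem evalHom_surjective : Function.Surjective (evalHom p) := by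
  intro t
  obtain ⟨s, rfl⟩ := latticeRestrictHom_surjective p ∅ t
  obtain ⟨P, rfl⟩ := heckeEvalForms_surjective p 2 s
  exact ⟨P, rfl⟩

theorem adjoin_range_tGen : Algebra.adjoin ℤ (Set.range (tGen p)) = ⊤ := by
  rw [eq_top_iff]
  rintro t -
  obtain ⟨P, rfl⟩ := evalHom_surjective p t
  induction P using MvPolynomial.induction_on with
  | C r =>
    rw [evalHom_C]
    exact Subalgebra.intCast_mem _ r
  | add P Q hP hQ =>
    rw [map_add]
    exact Subalgebra.add_mem _ hP hQ
  | mul_X P ℓ hP =>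
    rw [map_mul]
    refine Subalgebra.mul_mem _ hP ?_
    have : evalHom p (MvPolynomial.X ℓ) = tGen p ℓ := evalHom_heckeGen p ℓ
    rw [this]
    exact Algebra.subset_adjoin ⟨ℓ, rfl⟩

theorem evalHom_X_sub_C (ℓ : Nat.Primes) (b : ℤ) :
    evalHom p (MvPolynomial.X ℓ - MvPolynomial.C b) =
      tGen p ℓ - (b : ↥(heckeLatticeAlgebra p ∅)) := by
  rw [map_sub, evalHom_C]
  congr 1
  exact evalHom_heckeGen p ℓ

/-- The ideal of the statement is the abstract Eisenstein ideal of `tGen`. -/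
theorem map_eisensteinIdeal :
    Ideal.map ((latticeRestrictHom p ∅).toRingHom.comp (heckeEvalForms p 2)) (eisensteinIdeal p) =
      eisIdeal (tGen p) (eisensteinSystem p) := by
  have h1 : eisensteinIdeal p = Ideal.span (Set.range fun ℓ : Nat.Primes =>
      (MvPolynomial.X ℓ - MvPolynomial.C (eisensteinSystem p ℓ) : MvPolynomial Nat.Primes ℤ)) :=
    ker_aeval_eq_span (eisensteinSystem p)
  show Ideal.map (evalHom p) (eisensteinIdeal p) = _
  rw [h1, Ideal.map_span, eisIdeal, ← Set.range_comp]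
  congr 2
  funext ℓ
  exact evalHom_X_sub_C p ℓ _

theorem eisensteinNumerator_pos : 1 ≤ eisensteinNumerator p := by
  have hp : 2 ≤ p := (Fact.out : p.Prime).two_le
  rw [eisensteinNumerator]
  have hpos : 0 < p - 1 := by omega
  have hg : Nat.gcd (p - 1) 12 ∣ p - 1 := Nat.gcd_dvd_left _ _
  exact Nat.div_pos (Nat.le_of_dvd hpos hg) (Nat.gcd_pos_of_pos_left _ hpos)

theorem eisensteinSystem_apply (ℓ : Nat.Primes) :
    eisensteinSystem p ℓ = if (ℓ : ℕ) = p then (1 : ℤ) else 1 + ((ℓ : ℕ) : ℤ) := by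
  have hp : p.Prime := Fact.out
  by_cases h : (ℓ : ℕ) = p
  · rw [if_pos h, eisensteinSystem_of_dvd (h ▸ dvd_refl _)]
  · rw [if_neg h, eisensteinSystem_of_not_dvd]
    intro hd
    exact h ((Nat.prime_dvd_prime_iff_eq ℓ.2 hp).mp hd)

/-- **S16 reduced to the lower and upper bound in terms of Eisenstein homomorphisms**
`φ : 𝕋 →+* ZMod M`, `φ (T_ℓ) = 1 + ℓ` (`ℓ ≠ p`), `φ (U_p) = 1`. -/
theorem natCard_eq_of_bounds
    (hlow : HasEisHom (tGen p) (eisensteinSystem p) (eisensteinNumerator p))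
    (hup : ∀ M : ℕ, 1 ≤ M → HasEisHom (tGen p) (eisensteinSystem p) M →
      M ∣ eisensteinNumerator p) :
    Nat.card (↥(heckeLatticeAlgebra p ∅) ⧸
        Ideal.map ((latticeRestrictHom p ∅).toRingHom.comp (heckeEvalForms p 2))
          (eisensteinIdeal p)) =
      eisensteinNumerator p :=
  natCard_quotient_eq' _ (tGen p) (eisensteinSystem p) (map_eisensteinIdeal p)
    (adjoin_range_tGen p) (eisensteinNumerator_pos p) hlow hup

end

end Fermat.Agent.S16.Alg.Dictionary
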