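import Fermat.Prelude.Def_CuspForm_HeckeLocal
import Fermat.Agent.S23.Coeff

/-!
# S16 (A3)+(A4): the `a₁`-pairing between the lattice Hecke algebra and the integral lattice

For every level `N`: `T := heckeLatticeAlgebra N ∅` acts on `L := intLattice N 2`, every `aₖ`
(`k ≥ 1`) is `a₁ ∘ t` for some `t ∈ T`, and `L → Hom_ℤ(T, ℤ)`, `g ↦ (t ↦ a₁(t g))` is bijective.
-/

set_option autoImplicit false

open CuspForm ModularFormClass CongruenceSubgroup

namespace Fermat.Agent.S16.Alg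

variable (N : ℕ) [NeZero N]

/-- integer `q`-coefficients of a lattice element. -/
noncomputable def coeffZ (f : ↥(intLattice N 2)) (k : ℕ) : ℤ :=
  Classical.choose (Fermat.Agent.S49.intLattice_qCoeff f.2 k)

theorem coeffZ_spec (f : ↥(intLattice N 2)) (k : ℕ) :
    qCoeff (⇑(f : CuspForm (Gamma0 N) 2)) k = (coeffZ N f k : ℂ) :=
  Classical.choose_spec (Fermat.Agent.S49.intLattice_qCoeff f.2 k)

theorem coeffZ_eq_iff (f : ↥(intLattice N 2)) (k : ℕ) (m : ℤ) :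
    coeffZ N f k = m ↔ qCoeff (⇑(f : CuspForm (Gamma0 N) 2)) k = (m : ℂ) := by
  rw [coeffZ_spec]
  exact Int.cast_inj.symm

theorem coeffZ_add (f g : ↥(intLattice N 2)) (k : ℕ) :
    coeffZ N (f + g) k = coeffZ N f k + coeffZ N g k := by
  rw [coeffZ_eq_iff]
  push_cast
  rw [← coeffZ_spec, ← coeffZ_spec]
  exact Fermat.Agent.S49.qCoeff_add _ _ k

theorem coeffZ_zsmul (c : ℤ) (f : ↥(intLattice N 2)) (k : ℕ) :
    coeffZ N (c • f) k = c * coeffZ N f k := by
  rw [coeffZ_eq_iff]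
  push_cast
  rw [← coeffZ_spec]
  exact Fermat.Agent.S49.qCoeff_zsmul c _ k

/-- the `k`-th coefficient as a `ℤ`-linear functional on the lattice. -/
noncomputable def coeffZHom (k : ℕ) : ↥(intLattice N 2) →ₗ[ℤ] ℤ where
  toFun f := coeffZ N f k
  map_add' f g := coeffZ_add N f g k
  map_smul' c f := by
    simp only [RingHom.id_apply, smul_eq_mul]
    exact coeffZ_zsmul N c f k

@[simp] theorem coeffZHom_apply (k : ℕ) (f : ↥(intLattice N 2)) :
    coeffZHom N k f = coeffZ N f k := rfl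

theorem coeffZ_zero_idx (f : ↥(intLattice N 2)) : coeffZ N f 0 = 0 := by
  rw [coeffZ_eq_iff, Fermat.Agent.S49.qCoeff_zero_idx]
  simp

theorem eq_zero_of_coeffZ (f : ↥(intLattice N 2)) (h : ∀ k, 0 < k → coeffZ N f k = 0) : f = 0 := by
  apply Subtype.ext
  refine Fermat.Agent.S49.eq_zero_of_qCoeff _ fun k => ?_
  rcases Nat.eq_zero_or_pos k with rfl | hk
  · exact Fermat.Agent.S49.qCoeff_zero_idx _
  · rw [coeffZ_spec, h k hk]
    simp

/-- the action of (the image in `T` of) an element of the complex Hecke algebra. -/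
theorem latticeRestrictHom_apply (t : ↥(heckeAlgebra N 2 ∅)) (f : ↥(intLattice N 2)) :
    (((latticeRestrictHom N ∅ t : ↥(heckeLatticeAlgebra N ∅)) :
        Module.End ℤ ↥(intLattice N 2)) f : CuspForm (Gamma0 N) 2) =
      (t : Module.End ℂ (CuspForm (Gamma0 N) 2)) (f : CuspForm (Gamma0 N) 2) := rfl

/-- (A3) every coefficient functional is `a₁ ∘ t`. -/
theorem exists_T (k : ℕ) (hk : 0 < k) : ∃ t : ↥(heckeLatticeAlgebra N ∅),
    ∀ f : ↥(intLattice N 2),
      coeffZ N ((t : Module.End ℤ ↥(intLattice N 2)) f) 1 = coeffZ N f k := by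
  obtain ⟨t0, ht0, h⟩ := Fermat.Agent.S23.exists_hecke_qCoeff N 2 (by norm_num) k hk
  refine ⟨latticeRestrictHom N ∅ ⟨t0, ht0⟩, fun f => ?_⟩
  rw [coeffZ_eq_iff, latticeRestrictHom_apply]
  rw [← coeffZ_spec]
  exact h _

/-- the pairing `T → Hom(L, ℤ)`, `t ↦ (f ↦ a₁(t f))`. -/
noncomputable def pairT : ↥(heckeLatticeAlgebra N ∅) →ₗ[ℤ] (↥(intLattice N 2) →ₗ[ℤ] ℤ) :=
  (LinearMap.llcomp ℤ ↥(intLattice N 2) ↥(intLattice N 2) ℤ (coeffZHom N 1)).comp
    (heckeLatticeAlgebra N ∅).val.toLinearMap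

theorem pairT_apply (t : ↥(heckeLatticeAlgebra N ∅)) (g : ↥(intLattice N 2)) :
    pairT N t g = coeffZ N ((t : Module.End ℤ ↥(intLattice N 2)) g) 1 := rfl

/-- the pairing `L → Hom(T, ℤ)`. -/
noncomputable def pairL : ↥(intLattice N 2) →ₗ[ℤ] (↥(heckeLatticeAlgebra N ∅) →ₗ[ℤ] ℤ) :=
  (pairT N).flip

theorem pairL_apply (g : ↥(intLattice N 2)) (t : ↥(heckeLatticeAlgebra N ∅)) :
    pairL N g t = coeffZ N ((t : Module.End ℤ ↥(intLattice N 2)) g) 1 := rfl

theorem pairL_injective : Function.Injective (pairL N) := by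
  rw [← LinearMap.ker_eq_bot, LinearMap.ker_eq_bot']
  intro g hg
  refine eq_zero_of_coeffZ N g fun k hk => ?_
  obtain ⟨t, ht⟩ := exists_T N k hk
  rw [← ht g, ← pairL_apply, hg]
  rfl

theorem pairT_injective : Function.Injective (pairT N) := by
  rw [← LinearMap.ker_eq_bot, LinearMap.ker_eq_bot']
  intro t ht
  -- `t f = 0` for all `f`
  apply Subtype.ext
  refine LinearMap.ext fun f => ?_
  show (t : Module.End ℤ ↥(intLattice N 2)) f = 0
  refine eq_zero_of_coeffZ N _ fun k hk => ?_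
  obtain ⟨s, hs⟩ := exists_T N k hk
  rw [← hs]
  -- `s (t f) = t (s f)` by commutativity
  have hcomm : (s : Module.End ℤ ↥(intLattice N 2)) ((t : Module.End ℤ ↥(intLattice N 2)) f) =
      (t : Module.End ℤ ↥(intLattice N 2)) ((s : Module.End ℤ ↥(intLattice N 2)) f) := by
    have h1 : ((s * t : ↥(heckeLatticeAlgebra N ∅)) : Module.End ℤ ↥(intLattice N 2)) =
        ((t * s : ↥(heckeLatticeAlgebra N ∅)) : Module.End ℤ ↥(intLattice N 2)) := by
      rw [mul_comm]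
    rw [Subalgebra.coe_mul, Subalgebra.coe_mul] at h1
    exact LinearMap.congr_fun h1 f
  rw [hcomm, ← pairT_apply, ht]
  rfl

theorem finrank_dual (A : Type*) [AddCommGroup A] [Module ℤ A] [Module.Free ℤ A]
    [Module.Finite ℤ A] : Module.finrank ℤ (A →ₗ[ℤ] ℤ) = Module.finrank ℤ A := by
  rw [Module.finrank_linearMap, Module.finrank_self, mul_one]

theorem finrank_le_of_injective_dual (A B : Type*) [AddCommGroup A] [Module ℤ A]
    [AddCommGroup B] [Module ℤ B] [Module.Free ℤ B] [Module.Finite ℤ B]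
    (f : A →ₗ[ℤ] (B →ₗ[ℤ] ℤ)) (hf : Function.Injective f) :
    Module.finrank ℤ A ≤ Module.finrank ℤ B := by
  have h1 := LinearMap.finrank_le_finrank_of_injective hf
  rwa [finrank_dual] at h1

theorem finrank_le1 :
    Module.finrank ℤ ↥(intLattice N 2) ≤ Module.finrank ℤ ↥(heckeLatticeAlgebra N ∅) := by
  exact finrank_le_of_injective_dual _ _ (pairL N) (pairL_injective N)

theorem finrank_le2 :
    Module.finrank ℤ ↥(heckeLatticeAlgebra N ∅) ≤ Module.finrank ℤ ↥(intLattice N 2) := by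
  haveI := intLattice.moduleFinite N
  haveI := intLattice.moduleFree N
  exact finrank_le_of_injective_dual _ _ (pairT N) (pairT_injective N)

theorem finrank_eq :
    Module.finrank ℤ ↥(intLattice N 2) = Module.finrank ℤ ↥(heckeLatticeAlgebra N ∅) :=
  le_antisymm (finrank_le1 N) (finrank_le2 N)

theorem exists_nsmul_mem_range (A B : Type*) [AddCommGroup A] [Module ℤ A] [Module.Free ℤ A]
    [Module.Finite ℤ A] [AddCommGroup B] [Module ℤ B] [Module.Free ℤ B] [Module.Finite ℤ B]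
    (f : A →ₗ[ℤ] (B →ₗ[ℤ] ℤ)) (hf : Function.Injective f)
    (hrk : Module.finrank ℤ A = Module.finrank ℤ B) (ψ : B →ₗ[ℤ] ℤ) :
    ∃ d : ℕ, 0 < d ∧ ∃ a : A, f a = d • ψ := by
  have hrk' : Module.finrank ℤ ↥(LinearMap.range f) = Module.finrank ℤ (B →ₗ[ℤ] ℤ) := by
    rw [LinearMap.finrank_range_of_inj hf, finrank_dual, hrk]
  haveI hfin : Finite ((B →ₗ[ℤ] ℤ) ⧸ LinearMap.range f) :=
    Submodule.finiteQuotientOfFreeOfRankEq _ hrk'
  refine ⟨Nat.card ((B →ₗ[ℤ] ℤ) ⧸ LinearMap.range f), Nat.card_pos, ?_⟩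
  have := AddSubgroup.nsmul_index_mem (LinearMap.range f).toAddSubgroup ψ
  obtain ⟨a, ha⟩ := this
  exact ⟨a, ha⟩


/-- (A4) duality: every `ℤ`-linear functional on `T` is `t ↦ a₁(t g)` for some `g ∈ L`. -/
theorem duality_surj (ψ : ↥(heckeLatticeAlgebra N ∅) →ₗ[ℤ] ℤ) :
    ∃ g : ↥(intLattice N 2), ∀ t : ↥(heckeLatticeAlgebra N ∅),
      ψ t = coeffZ N ((t : Module.End ℤ ↥(intLattice N 2)) g) 1 := by
  haveI := intLattice.moduleFinite N
  haveI := intLattice.moduleFree N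
  obtain ⟨d, hdpos, g0, hg0⟩ := exists_nsmul_mem_range _ _ (pairL N) (pairL_injective N)
    (finrank_eq N) ψ
  -- all coefficients of `g0` are divisible by `d`
  have hval : ∀ t : ↥(heckeLatticeAlgebra N ∅),
      coeffZ N ((t : Module.End ℤ ↥(intLattice N 2)) g0) 1 = (d : ℤ) * ψ t := by
    intro t
    rw [← pairL_apply, hg0]
    simp
  have hdiv : ∀ k, ∃ m : ℤ, qCoeff (⇑(g0 : CuspForm (Gamma0 N) 2)) k = (((d : ℤ) * m : ℤ) : ℂ) := by
    intro k
    rcases Nat.eq_zero_or_pos k with rfl | hk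
    · exact ⟨0, by rw [Fermat.Agent.S49.qCoeff_zero_idx]; simp⟩
    · obtain ⟨t, ht⟩ := exists_T N k hk
      refine ⟨ψ t, ?_⟩
      rw [coeffZ_spec, ← ht g0, hval]
  -- divide by `d`
  have hdC : (d : ℂ) ≠ 0 := by exact_mod_cast hdpos.ne'
  have hg1mem : ((d : ℂ)⁻¹) • (g0 : CuspForm (Gamma0 N) 2) ∈ intLattice N 2 := by
    refine Fermat.Agent.S49.mem_intLattice_of_qCoeff fun k => ?_
    obtain ⟨m, hm⟩ := hdiv k
    refine ⟨m, ?_⟩
    rw [Fermat.Agent.S49.qCoeff_smul, hm]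
    push_cast
    field_simp
  have hsmul : (d : ℤ) • (⟨_, hg1mem⟩ : ↥(intLattice N 2)) = g0 := by
    apply Subtype.ext
    show (d : ℤ) • (((d : ℂ)⁻¹) • (g0 : CuspForm (Gamma0 N) 2)) = (g0 : CuspForm (Gamma0 N) 2)
    rw [← Int.cast_smul_eq_zsmul ℂ (d : ℤ), smul_smul]
    push_cast
    rw [mul_inv_cancel₀ hdC, one_smul]
  refine ⟨⟨_, hg1mem⟩, fun t => ?_⟩
  have h1 : (d : ℤ) * ψ t =
      (d : ℤ) * coeffZ N ((t : Module.End ℤ ↥(intLattice N 2)) ⟨_, hg1mem⟩) 1 := by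
    rw [← hval t, ← coeffZ_zsmul, ← map_zsmul, hsmul]
  exact mul_left_cancel₀ (by exact_mod_cast hdpos.ne') h1

end Fermat.Agent.S16.Alg

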