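import Mathlib

/-!
# S16 (A): the Eisenstein coefficient sequence `σ'(k) = ∑_{d ∣ k, p ∤ d} d` and its Hecke recursion
-/

set_option autoImplicit false

namespace Fermat.Agent.S16.Alg

/-- `σ'(k)`: the sum of the divisors of `k` that are prime to `p`. -/
def sigmaStar (p k : ℕ) : ℕ := ∑ d ∈ k.divisors.filter (fun d => ¬ p ∣ d), d

theorem sigmaStar_zero (p : ℕ) : sigmaStar p 0 = 0 := by
  simp [sigmaStar]

theorem sigmaStar_one {p : ℕ} (hp : p.Prime) : sigmaStar p 1 = 1 := by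
  have h : ¬ p ∣ 1 := hp.one_lt.ne' ∘ Nat.dvd_one.mp
  simp [sigmaStar, Finset.filter_singleton, h]

/-- removing a factor `p`. -/
theorem sigmaStar_mul_self {p : ℕ} (hp : p.Prime) (k : ℕ) (hk : 0 < k) :
    sigmaStar p (k * p) = sigmaStar p k := by
  unfold sigmaStar
  congr 1
  ext d
  simp only [Finset.mem_filter, Nat.mem_divisors]
  constructor
  · rintro ⟨⟨hd, _⟩, hpd⟩
    refine ⟨⟨?_, hk.ne'⟩, hpd⟩
    have hcop : Nat.Coprime d p := ((Nat.Prime.coprime_iff_not_dvd hp).mpr hpd).symm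
    exact hcop.dvd_of_dvd_mul_right hd
  · rintro ⟨⟨hd, _⟩, hpd⟩
    exact ⟨⟨Dvd.dvd.mul_right hd p, Nat.mul_ne_zero hk.ne' hp.ne_zero⟩, hpd⟩

/-- the multiplicative function `d ↦ d·[p ∤ d]`. -/
noncomputable def gStar (p : ℕ) : ArithmeticFunction ℕ :=
  ⟨fun d => if d = 0 then 0 else if p ∣ d then 0 else d, by simp⟩

theorem gStar_apply (p d : ℕ) : gStar p d = if d = 0 then 0 else if p ∣ d then 0 else d := rfl

theorem gStar_isMultiplicative {p : ℕ} (hp : p.Prime) : (gStar p).IsMultiplicative := by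
  refine ⟨?_, ?_⟩
  · have h : ¬ p ∣ 1 := hp.one_lt.ne' ∘ Nat.dvd_one.mp
    simp [gStar_apply, h]
  · intro m n _
    simp only [gStar_apply]
    by_cases hm : m = 0
    · simp [hm]
    by_cases hn : n = 0
    · simp [hn]
    by_cases hpm : p ∣ m
    · simp [hm, hn, hpm, Dvd.dvd.mul_right hpm n]
    by_cases hpn : p ∣ n
    · simp [hm, hn, hpn, Dvd.dvd.mul_left hpn m]
    have : ¬ p ∣ m * n := fun h => (hp.dvd_mul.mp h).elim hpm hpn
    simp [hm, hn, hpm, hpn, this]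

theorem sigmaStar_eq_conv (p k : ℕ) :
    sigmaStar p k = (gStar p * ArithmeticFunction.zeta) k := by
  rw [← ArithmeticFunction.natCoe_nat ArithmeticFunction.zeta,
    ArithmeticFunction.coe_mul_zeta_apply]
  unfold sigmaStar
  rw [Finset.sum_filter]
  refine Finset.sum_congr rfl fun d hd => ?_
  have hd0 : d ≠ 0 := (Nat.pos_of_mem_divisors hd).ne'
  simp [gStar_apply, hd0]

theorem sigmaStar_isMultiplicative {p : ℕ} (hp : p.Prime) :
    ((gStar p * ArithmeticFunction.zeta : ArithmeticFunction ℕ)).IsMultiplicative :=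
  (gStar_isMultiplicative hp).mul ArithmeticFunction.isMultiplicative_zeta

theorem sigmaStar_mul_of_coprime {p : ℕ} (hp : p.Prime) {m n : ℕ} (h : Nat.Coprime m n) :
    sigmaStar p (m * n) = sigmaStar p m * sigmaStar p n := by
  rw [sigmaStar_eq_conv, sigmaStar_eq_conv, sigmaStar_eq_conv]
  exact (sigmaStar_isMultiplicative hp).map_mul_of_coprime h

theorem sigmaStar_prime_pow {p ℓ : ℕ} (hp : p.Prime) (hℓ : ℓ.Prime) (hℓp : ℓ ≠ p) (r : ℕ) :
    sigmaStar p (ℓ ^ r) = ∑ i ∈ Finset.range (r + 1), ℓ ^ i := by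
  unfold sigmaStar
  rw [Nat.divisors_prime_pow hℓ, Finset.filter_true_of_mem, Finset.sum_map]
  · rfl
  · intro d hd
    simp only [Finset.mem_map, Finset.mem_range, Function.Embedding.coeFn_mk] at hd
    obtain ⟨i, _, rfl⟩ := hd
    intro h
    exact hℓp ((Nat.prime_dvd_prime_iff_eq hp hℓ).mp (hp.dvd_of_dvd_pow h)).symm

/-- Hecke recursion at a prime `ℓ ≠ p`, case `ℓ ∤ k`. -/
theorem sigmaStar_mul_prime_of_not_dvd {p ℓ : ℕ} (hp : p.Prime) (hℓ : ℓ.Prime) (hℓp : ℓ ≠ p)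
    {k : ℕ} (hk : ¬ ℓ ∣ k) : sigmaStar p (k * ℓ) = (1 + ℓ) * sigmaStar p k := by
  have hcop : Nat.Coprime k ℓ := ((Nat.Prime.coprime_iff_not_dvd hℓ).mpr hk).symm
  rw [sigmaStar_mul_of_coprime hp hcop]
  have h1 := sigmaStar_prime_pow hp hℓ hℓp 1
  rw [pow_one] at h1
  rw [h1, Finset.sum_range_succ, Finset.sum_range_one, pow_zero, pow_one, mul_comm]

/-- Hecke recursion at a prime `ℓ ≠ p`, case `ℓ ∣ k`. -/
theorem sigmaStar_mul_prime_of_dvd {p ℓ : ℕ} (hp : p.Prime) (hℓ : ℓ.Prime) (hℓp : ℓ ≠ p)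
    {k : ℕ} (hk0 : 0 < k) (hk : ℓ ∣ k) :
    sigmaStar p (k * ℓ) + ℓ * sigmaStar p (k / ℓ) = (1 + ℓ) * sigmaStar p k := by
  -- write `k = ℓ ^ (r+1) * m` with `ℓ ∤ m`
  obtain ⟨r', m, hm, rfl⟩ := Nat.exists_eq_pow_mul_and_not_dvd hk0.ne' ℓ hℓ.ne_one
  have hr' : r' ≠ 0 := by
    rintro rfl
    rw [pow_zero, one_mul] at hk
    exact hm hk
  obtain ⟨r, rfl⟩ := Nat.exists_eq_succ_of_ne_zero hr'
  have hcop : ∀ s : ℕ, Nat.Coprime (ℓ ^ s) m := fun s =>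
    Nat.Coprime.pow_left s ((Nat.Prime.coprime_iff_not_dvd hℓ).mpr hm)
  have e1 : ℓ ^ (r + 1) * m * ℓ = ℓ ^ (r + 2) * m := by ring
  have e2 : ℓ ^ (r + 1) * m / ℓ = ℓ ^ r * m := by
    rw [pow_succ, mul_assoc, mul_comm ℓ m, ← mul_assoc]
    exact Nat.mul_div_cancel _ hℓ.pos
  rw [e1, e2, sigmaStar_mul_of_coprime hp (hcop _), sigmaStar_mul_of_coprime hp (hcop _),
    sigmaStar_mul_of_coprime hp (hcop _), sigmaStar_prime_pow hp hℓ hℓp,
    sigmaStar_prime_pow hp hℓ hℓp, sigmaStar_prime_pow hp hℓ hℓp]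
  have geom : ∀ n : ℕ, (∑ i ∈ Finset.range (n + 1), ℓ ^ i) = 1 + ℓ * ∑ i ∈ Finset.range n, ℓ ^ i := by
    intro n
    rw [Finset.sum_range_succ', Finset.mul_sum, pow_zero, add_comm]
    congr 1
    exact Finset.sum_congr rfl fun i _ => by ring
  have key : (∑ i ∈ Finset.range (r + 2 + 1), ℓ ^ i) + ℓ * ∑ i ∈ Finset.range (r + 1), ℓ ^ i
      = (1 + ℓ) * ∑ i ∈ Finset.range (r + 1 + 1), ℓ ^ i := by
    rw [geom (r + 2), geom (r + 1)]
    ring
  calc (∑ i ∈ Finset.range (r + 2 + 1), ℓ ^ i) * sigmaStar p m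
        + ℓ * ((∑ i ∈ Finset.range (r + 1), ℓ ^ i) * sigmaStar p m)
      = ((∑ i ∈ Finset.range (r + 2 + 1), ℓ ^ i) + ℓ * ∑ i ∈ Finset.range (r + 1), ℓ ^ i)
          * sigmaStar p m := by ring
    _ = (1 + ℓ) * ((∑ i ∈ Finset.range (r + 1 + 1), ℓ ^ i) * sigmaStar p m) := by
        rw [key]; ring

end Fermat.Agent.S16.Alg
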