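import Fermat.Agent.S16.Alg.KernelForm
import Fermat.Agent.S16.Alg.Duality
import Fermat.Agent.S16.Alg.SigmaStar

/-!
# S16 (A5): Eisenstein homomorphisms of the lattice Hecke algebra versus cusp forms congruent to
the Eisenstein series

`HasEisHom (tGen p) (eisensteinSystem p) M` (a ring hom `𝕋 → ℤ/M` with `T_ℓ ↦ 1 + ℓ`, `U_p ↦ 1`)
holds iff there is a cusp form `g ∈ S₂(Γ₀(p))` with integer coefficients `aₖ(g) ≡ σ'(k) mod M`.
-/

set_option autoImplicit false

open ModularCurve CuspForm ModularFormClass CongruenceSubgroup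

namespace Fermat.Agent.S16.Alg

open Fermat.Agent.S16.Alg.AbstractCard Fermat.Agent.S16.Alg.Dictionary
  Fermat.Agent.S16.Alg.KernelForm

/-! ### Pure algebra -/


/-- A sequence satisfying the Eisenstein Hecke recursions is `A 1 · σ'`. -/
theorem eis_rec {R : Type*} [CommRing R] {p : ℕ} (hp : p.Prime) (A : ℕ → R)
    (h1 : ∀ k, 0 < k → A (k * p) = A k)
    (h2 : ∀ ℓ : Nat.Primes, (ℓ : ℕ) ≠ p → ∀ k, 0 < k →
      A (k * ℓ) + (if (ℓ : ℕ) ∣ k then ((ℓ : ℕ) : R) * A (k / ℓ) else 0) =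
        (1 + ((ℓ : ℕ) : R)) * A k) :
    ∀ k, 0 < k → A k = A 1 * (sigmaStar p k : R) := by
  intro k
  induction k using Nat.strong_induction_on with
  | _ k ih =>
    intro hk
    rcases Nat.lt_or_ge 1 k with hk1 | hk1
    · -- `k > 1`: split off the least prime factor
      have hℓ : (k.minFac).Prime := Nat.minFac_prime (by omega)
      set ℓ := k.minFac with hℓdef
      have hdvd : ℓ ∣ k := Nat.minFac_dvd k
      obtain ⟨k', hk'⟩ := hdvd
      have hk'pos : 0 < k' := by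
        rcases Nat.eq_zero_or_pos k' with h | h
        · rw [h, mul_zero] at hk'; omega
        · exact h
      have hk'lt : k' < k := by
        rw [hk']
        have := hℓ.two_le
        nlinarith
      have hkk : k = k' * ℓ := by rw [hk', mul_comm]
      rw [hkk]
      by_cases hℓp : ℓ = p
      · rw [hℓp, h1 k' hk'pos, ih k' hk'lt hk'pos, sigmaStar_mul_self hp k' hk'pos]
      · obtain ⟨L, hL⟩ : ∃ L : Nat.Primes, (L : ℕ) = ℓ := ⟨⟨ℓ, hℓ⟩, rfl⟩
        have hrec := h2 L (hL ▸ hℓp) k' hk'pos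
        rw [hL] at hrec
        by_cases hd : ℓ ∣ k'
        · rw [if_pos hd] at hrec
          have hq : 0 < k' / ℓ := Nat.div_pos (Nat.le_of_dvd hk'pos hd) hℓ.pos
          have hqlt : k' / ℓ < k := lt_of_le_of_lt (Nat.div_le_self _ _) hk'lt
          have e := sigmaStar_mul_prime_of_dvd hp hℓ hℓp hk'pos hd
          have e' : ((sigmaStar p (k' * ℓ) : ℕ) : R) + (ℓ : R) * (sigmaStar p (k' / ℓ) : R) =
              (1 + (ℓ : R)) * (sigmaStar p k' : R) := by exact_mod_cast congrArg (Nat.cast : ℕ → R) e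
          rw [ih k' hk'lt hk'pos, ih (k' / ℓ) hqlt hq] at hrec
          linear_combination hrec - A 1 * e'
        · rw [if_neg hd, add_zero] at hrec
          have e := sigmaStar_mul_prime_of_not_dvd hp hℓ hℓp hd
          rw [hrec, ih k' hk'lt hk'pos, e]
          push_cast
          ring
    · have : k = 1 := by omega
      rw [this, sigmaStar_one hp]
      simp



/-- lifting an additive map to `ZMod M` from a free `ℤ`-module to a `ℤ`-linear functional. -/
theorem exists_lift_zmod {A : Type*} [AddCommGroup A] [Module ℤ A] [Module.Free ℤ A] (M : ℕ)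
    (φ : A →+ ZMod M) : ∃ ψ : A →ₗ[ℤ] ℤ, ∀ a, ((ψ a : ℤ) : ZMod M) = φ a := by
  classical
  let b := Module.Free.chooseBasis ℤ A
  choose c hc using fun i => ZMod.intCast_surjective (φ (b i))
  refine ⟨b.constr ℤ c, fun a => ?_⟩
  have ha : a ∈ Submodule.span ℤ (Set.range b) := b.mem_span a
  induction ha using Submodule.span_induction with
  | mem x hx =>
    obtain ⟨i, rfl⟩ := hx
    rw [Module.Basis.constr_basis, hc]
  | zero => simp
  | add x y _ _ hx hy => rw [map_add, Int.cast_add, hx, hy, map_add]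
  | smul n x _ hx =>
    have h2 := map_intCast_smul φ ℤ ℤ n x
    rw [Int.cast_id, zsmul_eq_mul] at h2
    rw [LinearMap.map_smul, smul_eq_mul, Int.cast_mul, hx]
    exact h2.symm


/-! ### Coefficients of the generators -/


variable (p : ℕ) [Fact p.Prime]

/-- the action of `tGen ℓ` on the lattice is the action of `heckeFormsGen ℓ` on cusp forms. -/
theorem coe_tGen_apply (ℓ : Nat.Primes) (f : ↥(intLattice p 2)) :
    ((((tGen p ℓ : ↥(heckeLatticeAlgebra p ∅)) : Module.End ℤ ↥(intLattice p 2)) f :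
        ↥(intLattice p 2)) : CuspForm (Gamma0 p) 2) =
      ((heckeFormsGen p 2 ℓ : ↥(heckeAlgebra p 2 ∅)) :
        Module.End ℂ (CuspForm (Gamma0 p) 2)) (f : CuspForm (Gamma0 p) 2) := rfl

/-- coefficients of `T_ℓ f`, `ℓ ≠ p`. -/
theorem coeffZ_tGen_of_ne (ℓ : Nat.Primes) (hℓ : (ℓ : ℕ) ≠ p) (f : ↥(intLattice p 2)) (k : ℕ) :
    coeffZ p (((tGen p ℓ : ↥(heckeLatticeAlgebra p ∅)) : Module.End ℤ ↥(intLattice p 2)) f) k =
      coeffZ p f (k * ℓ) + if (ℓ : ℕ) ∣ k then ((ℓ : ℕ) : ℤ) * coeffZ p f (k / ℓ) else 0 := by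
  have hp : p.Prime := Fact.out
  have hnd : ¬ (ℓ : ℕ) ∣ p := fun h => hℓ ((Nat.prime_dvd_prime_iff_eq ℓ.2 hp).mp h)
  rw [coeffZ_eq_iff, coe_tGen_apply, heckeFormsGen_of_not_dvd hnd, heckeAlgebra.coe_T,
    Fermat.Agent.S49.qCoeff_heckeTLin, ModularForm.coeffHeckeT_apply, coeffZ_spec]
  split_ifs with h
  · rw [coeffZ_spec]
    push_cast
    norm_num
  · simp

/-- coefficients of `U_p f`. -/
theorem coeffZ_tGen_self (ℓ : Nat.Primes) (hℓ : (ℓ : ℕ) = p) (f : ↥(intLattice p 2)) (k : ℕ) :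
    coeffZ p (((tGen p ℓ : ↥(heckeLatticeAlgebra p ∅)) : Module.End ℤ ↥(intLattice p 2)) f) k =
      coeffZ p f (k * p) := by
  have hd : (ℓ : ℕ) ∣ p := hℓ ▸ dvd_refl _
  rw [coeffZ_eq_iff, coe_tGen_apply, heckeFormsGen_of_dvd hd, heckeAlgebra.coe_U,
    Fermat.Agent.S49.qCoeff_heckeULin ℓ.2 hd, ModularForm.coeffHeckeU_apply, coeffZ_spec, hℓ]


/-! ### From an Eisenstein homomorphism to a cusp form (upper bound direction) -/

/-- `(s t) f = s (t f)` in the lattice Hecke algebra. -/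
theorem coe_mul_apply (s t : ↥(heckeLatticeAlgebra p ∅)) (f : ↥(intLattice p 2)) :
    ((s * t : ↥(heckeLatticeAlgebra p ∅)) : Module.End ℤ ↥(intLattice p 2)) f =
      (s : Module.End ℤ ↥(intLattice p 2)) ((t : Module.End ℤ ↥(intLattice p 2)) f) := rfl

theorem coe_one_apply (f : ↥(intLattice p 2)) :
    ((1 : ↥(heckeLatticeAlgebra p ∅)) : Module.End ℤ ↥(intLattice p 2)) f = f := rfl

/-- If `ψ` lifts a ring hom `φ` and is represented by `g`, then `g` is a `φ`-eigenvector mod `M`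
on every coefficient. -/
theorem coeffZ_apply_eq_mul {M : ℕ} (φ : ↥(heckeLatticeAlgebra p ∅) →+* ZMod M)
    (g : ↥(intLattice p 2))
    (hg : ∀ t : ↥(heckeLatticeAlgebra p ∅),
      ((coeffZ p ((t : Module.End ℤ ↥(intLattice p 2)) g) 1 : ℤ) : ZMod M) = φ t)
    (s : ↥(heckeLatticeAlgebra p ∅)) (k : ℕ) (hk : 0 < k) :
    ((coeffZ p ((s : Module.End ℤ ↥(intLattice p 2)) g) k : ℤ) : ZMod M) =
      φ s * ((coeffZ p g k : ℤ) : ZMod M) := by
  obtain ⟨t, ht⟩ := exists_T p k hk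
  have h1 : coeffZ p ((s : Module.End ℤ ↥(intLattice p 2)) g) k =
      coeffZ p (((t * s : ↥(heckeLatticeAlgebra p ∅)) : Module.End ℤ ↥(intLattice p 2)) g) 1 := by
    rw [coe_mul_apply, ht]
  rw [h1, hg, map_mul, ← hg t, ht, mul_comm]

theorem exists_form_of_hasEisHom (M : ℕ) (_hM : 1 ≤ M)
    (h : HasEisHom (tGen p) (eisensteinSystem p) M) :
    ∃ g : CuspForm (Gamma0 p) 2, ∀ k, 1 ≤ k → ∃ m : ℤ,
      qCoeff (⇑g) k = (((sigmaStar p k : ℤ) + (M : ℤ) * m : ℤ) : ℂ) := by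
  have hp : p.Prime := Fact.out
  obtain ⟨φ, hφ⟩ := h
  obtain ⟨ψ, hψ⟩ := exists_lift_zmod M φ.toAddMonoidHom
  obtain ⟨g, hg⟩ := duality_surj p ψ
  have hg' : ∀ t : ↥(heckeLatticeAlgebra p ∅),
      ((coeffZ p ((t : Module.End ℤ ↥(intLattice p 2)) g) 1 : ℤ) : ZMod M) = φ t := by
    intro t
    rw [← hg t, hψ]
    rfl
  have key := coeffZ_apply_eq_mul p φ g hg'
  -- the recursions
  have hA1 : ((coeffZ p g 1 : ℤ) : ZMod M) = 1 := by
    have := hg' 1
    rwa [coe_one_apply, map_one] at this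
  have hrec := eis_rec (R := ZMod M) hp (fun k => ((coeffZ p g k : ℤ) : ZMod M))
    (fun k hk => by
      obtain ⟨P, hP⟩ : ∃ P : Nat.Primes, (P : ℕ) = p := ⟨⟨p, hp⟩, rfl⟩
      have h1 := key (tGen p P) k hk
      rw [coeffZ_tGen_self p P hP, hφ, eisensteinSystem_apply, if_pos hP] at h1
      simpa using h1)
    (fun ℓ hℓp k hk => by
      have h1 := key (tGen p ℓ) k hk
      rw [coeffZ_tGen_of_ne p ℓ hℓp, hφ, eisensteinSystem_apply, if_neg hℓp] at h1
      have h2 : ((1 + ((ℓ : ℕ) : ℤ) : ℤ) : ZMod M) = 1 + (((ℓ : ℕ) : ZMod M)) := by push_cast; rfl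
      rw [h2] at h1
      rw [← h1]
      split_ifs <;> push_cast <;> ring)
  refine ⟨(g : CuspForm (Gamma0 p) 2), fun k hk => ?_⟩
  have h2 := hrec k hk
  simp only [hA1, one_mul] at h2
  have h3 : ((coeffZ p g k : ℤ) : ZMod M) = (((sigmaStar p k : ℕ) : ℤ) : ZMod M) := by
    rw [h2]
    push_cast
    rfl
  rw [ZMod.intCast_eq_intCast_iff_dvd_sub] at h3
  obtain ⟨m, hm⟩ := h3
  refine ⟨-m, ?_⟩
  rw [coeffZ_spec]
  congr 1
  linarith

/-! ### Reduction of the upper bound to prime powers -/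

theorem dvd_of_forall_prime_pow (n : ℕ)
    (h : ∀ l : ℕ, l.Prime → ∀ a : ℕ, 1 ≤ a →
      HasEisHom (tGen p) (eisensteinSystem p) (l ^ a) → l ^ a ∣ n) :
    ∀ M : ℕ, 1 ≤ M → HasEisHom (tGen p) (eisensteinSystem p) M → M ∣ n := by
  intro M _ hM
  rw [Nat.dvd_iff_prime_pow_dvd_dvd]
  intro l a hl hla
  rcases Nat.eq_zero_or_pos a with rfl | ha
  · simp
  · refine h l hl a ha ?_
    rw [hasEisHom_iff_dvd _ _ (adjoin_range_tGen p)] at hM ⊢
    exact hla.trans hM

/-! ### From a cusp form to an Eisenstein homomorphism (lower bound direction) -/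

theorem coe_intCast_apply (r : ℤ) (f : ↥(intLattice p 2)) :
    (((r : ↥(heckeLatticeAlgebra p ∅)) : Module.End ℤ ↥(intLattice p 2))) f = r • f := by
  rw [SubringClass.coe_intCast, Module.End.intCast_apply]

theorem coe_add_apply (s t : ↥(heckeLatticeAlgebra p ∅)) (f : ↥(intLattice p 2)) :
    ((s + t : ↥(heckeLatticeAlgebra p ∅)) : Module.End ℤ ↥(intLattice p 2)) f =
      (s : Module.End ℤ ↥(intLattice p 2)) f + (t : Module.End ℤ ↥(intLattice p 2)) f := rfl

/-- the Hecke polynomial `P` acts on an Eisenstein-like lattice element through `P(eis)` mod `M`. -/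
theorem coeffZ_evalHom_apply {M : ℕ} (g : ↥(intLattice p 2))
    (hg : ∀ k, 0 < k → ((coeffZ p g k : ℤ) : ZMod M) = ((sigmaStar p k : ℕ) : ZMod M))
    (P : HeckeAlg) : ∀ k, 0 < k →
      ((coeffZ p ((evalHom p P : Module.End ℤ ↥(intLattice p 2)) g) k : ℤ) : ZMod M) =
        ((eisEval p P : ℤ) : ZMod M) * ((sigmaStar p k : ℕ) : ZMod M) := by
  have hp : p.Prime := Fact.out
  induction P using MvPolynomial.induction_on with
  | C r =>
    intro k hk
    rw [evalHom_C, coe_intCast_apply, coeffZ_zsmul, Int.cast_mul, hg k hk]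
    congr 2
    rw [eisEval_apply, MvPolynomial.aeval_C]
    rfl
  | add P Q hP hQ =>
    intro k hk
    rw [map_add, coe_add_apply, coeffZ_add, Int.cast_add, hP k hk, hQ k hk, map_add, Int.cast_add,
      add_mul]
  | mul_X P ℓ hP =>
    intro k hk
    have h1 : evalHom p (MvPolynomial.X ℓ) = tGen p ℓ := evalHom_heckeGen p ℓ
    have h2 : eisEval p (MvPolynomial.X ℓ) = eisensteinSystem p ℓ := eisEval_heckeGen p ℓ
    rw [map_mul, h1, mul_comm, coe_mul_apply, map_mul, h2, eisensteinSystem_apply]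
    by_cases hℓ : (ℓ : ℕ) = p
    · rw [coeffZ_tGen_self p ℓ hℓ, if_pos hℓ, hP _ (Nat.mul_pos hk hp.pos),
        sigmaStar_mul_self hp k hk, mul_one]
    · rw [coeffZ_tGen_of_ne p ℓ hℓ, if_neg hℓ, Int.cast_add, hP _ (Nat.mul_pos hk ℓ.2.pos)]
      by_cases hd : (ℓ : ℕ) ∣ k
      · have hq : 0 < k / ℓ := Nat.div_pos (Nat.le_of_dvd hk hd) ℓ.2.pos
        rw [if_pos hd, Int.cast_mul, hP _ hq]
        have e := sigmaStar_mul_prime_of_dvd hp ℓ.2 hℓ hk hd
        have e' : ((sigmaStar p (k * ℓ) : ℕ) : ZMod M) +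
            ((ℓ : ℕ) : ZMod M) * ((sigmaStar p (k / ℓ) : ℕ) : ZMod M) =
            (1 + ((ℓ : ℕ) : ZMod M)) * ((sigmaStar p k : ℕ) : ZMod M) := by
          exact_mod_cast congrArg (Nat.cast : ℕ → ZMod M) e
        push_cast
        linear_combination ((eisEval p P : ℤ) : ZMod M) * e'
      · rw [if_neg hd, Int.cast_zero, add_zero, sigmaStar_mul_prime_of_not_dvd hp ℓ.2 hℓ hd]
        push_cast
        ring

theorem hasEisHom_of_form (M : ℕ) (g : CuspForm (Gamma0 p) 2)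
    (hg : ∀ k, 1 ≤ k → ∃ m : ℤ,
      qCoeff (⇑g) k = (((sigmaStar p k : ℤ) + (M : ℤ) * m : ℤ) : ℂ)) :
    HasEisHom (tGen p) (eisensteinSystem p) M := by
  have hp : p.Prime := Fact.out
  have hmem : g ∈ intLattice p 2 := by
    refine Fermat.Agent.S49.mem_intLattice_of_qCoeff fun k => ?_
    rcases Nat.eq_zero_or_pos k with rfl | hk
    · exact ⟨0, by rw [Fermat.Agent.S49.qCoeff_zero_idx]; simp⟩
    · obtain ⟨m, hm⟩ := hg k hk
      exact ⟨_, hm⟩
  have hg' : ∀ k, 0 < k →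
      ((coeffZ p ⟨g, hmem⟩ k : ℤ) : ZMod M) = ((sigmaStar p k : ℕ) : ZMod M) := by
    intro k hk
    obtain ⟨m, hm⟩ := hg k hk
    have h1 : coeffZ p ⟨g, hmem⟩ k = (sigmaStar p k : ℤ) + (M : ℤ) * m :=
      (coeffZ_eq_iff p ⟨g, hmem⟩ k _).mpr hm
    rw [h1]
    push_cast
    simp
  rw [hasEisHom_iff_forall_evalHom]
  intro P hP
  have h1 := coeffZ_evalHom_apply p ⟨g, hmem⟩ hg' P 1 one_pos
  rw [hP, sigmaStar_one hp, Nat.cast_one, mul_one] at h1
  have h0 : coeffZ p (((0 : ↥(heckeLatticeAlgebra p ∅)) : Module.End ℤ ↥(intLattice p 2))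
      ⟨g, hmem⟩) 1 = 0 := by
    have : ((0 : ↥(heckeLatticeAlgebra p ∅)) : Module.End ℤ ↥(intLattice p 2)) ⟨g, hmem⟩ = 0 := rfl
    rw [this]
    exact (coeffZHom p 1).map_zero
  rw [h0, Int.cast_zero] at h1
  exact (ZMod.intCast_zmod_eq_zero_iff_dvd _ _).mp h1.symm

end Fermat.Agent.S16.Alg
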