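import Fermat.Agent.S16.Alg.Dictionary
import Fermat.Agent.S23

/-!
# S16 (A2'): the "kernel form" of the existence of an Eisenstein homomorphism

`HasEisHom (tGen p) (eisensteinSystem p) n` holds iff every polynomial `P` in the abstract Hecke
algebra `ℤ[X_ℓ]` which acts as `0` on `S₂(Γ₀(p))` satisfies `n ∣ P(eis)`, where `P(eis)` is the
value of `P` at the Eisenstein system `X_ℓ ↦ 1 + ℓ` (`ℓ ≠ p`), `X_p ↦ 1`.
-/

set_option autoImplicit false

open ModularCurve CuspForm

namespace Fermat.Agent.S16.Alg.KernelForm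

open Fermat.Agent.S16.Alg.AbstractCard Fermat.Agent.S16.Alg.Dictionary

noncomputable section

variable (p : ℕ) [Fact p.Prime]

/-- Evaluation of a Hecke polynomial at the Eisenstein system. -/
def eisEval : HeckeAlg →+* ℤ :=
  (MvPolynomial.aeval (R := ℤ) (eisensteinSystem p)).toRingHom

omit [Fact p.Prime] in
theorem eisEval_apply (P : HeckeAlg) :
    eisEval p P = MvPolynomial.aeval (R := ℤ) (eisensteinSystem p) P := rfl

omit [Fact p.Prime] in
theorem eisEval_heckeGen (ℓ : Nat.Primes) : eisEval p (heckeGen ℓ) = eisensteinSystem p ℓ := by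
  rw [eisEval_apply, aeval_heckeGen]

/-- Acting as `0` on the lattice is the same as acting as `0` on `S₂(Γ₀(p))` (by S23). -/
theorem evalHom_eq_zero_iff (P : HeckeAlg) :
    evalHom p P = 0 ↔ heckeEvalForms p 2 P = 0 := by
  have hbij := latticeRestrictHom_bijective p ∅ (Fermat.Agent.S23.result p)
  constructor
  · intro h
    apply hbij.1
    rw [map_zero]
    exact h
  · intro h
    show (latticeRestrictHom p ∅) (heckeEvalForms p 2 P) = 0
    rw [h, map_zero]

/-- An Eisenstein hom composed with `evalHom` is evaluation at the Eisenstein system mod `M`. -/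
theorem comp_evalHom_eq {M : ℕ} (φ : ↥(heckeLatticeAlgebra p ∅) →+* ZMod M)
    (hφ : ∀ ℓ, φ (tGen p ℓ) = (eisensteinSystem p ℓ : ZMod M)) (P : HeckeAlg) :
    φ (evalHom p P) = ((eisEval p P : ℤ) : ZMod M) := by
  induction P using MvPolynomial.induction_on with
  | C r =>
    rw [evalHom_C, map_intCast]
    congr 1
    rw [eisEval_apply, MvPolynomial.aeval_C]
    rfl
  | add P Q hP hQ => rw [map_add, map_add, hP, hQ, map_add, Int.cast_add]
  | mul_X P ℓ hP =>
    rw [map_mul, map_mul, hP, map_mul, Int.cast_mul]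
    congr 1
    have h1 : evalHom p (MvPolynomial.X ℓ) = tGen p ℓ := evalHom_heckeGen p ℓ
    have h2 : eisEval p (MvPolynomial.X ℓ) = eisensteinSystem p ℓ := eisEval_heckeGen p ℓ
    rw [h1, h2, hφ]

/-- **Kernel form, lattice version.** -/
theorem hasEisHom_iff_forall_evalHom (M : ℕ) :
    HasEisHom (tGen p) (eisensteinSystem p) M ↔
      ∀ P : HeckeAlg, evalHom p P = 0 → (M : ℤ) ∣ eisEval p P := by
  constructor
  · rintro ⟨φ, hφ⟩ P hP
    have h := comp_evalHom_eq p φ hφ P
    rw [hP, map_zero] at h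
    exact (ZMod.intCast_zmod_eq_zero_iff_dvd _ _).mp h.symm
  · intro h
    let ψ : HeckeAlg →+* ZMod M := (Int.castRingHom (ZMod M)).comp (eisEval p)
    have hker : ∀ P : HeckeAlg, P ∈ RingHom.ker (evalHom p) → ψ P = 0 := by
      intro P hP
      rw [RingHom.mem_ker] at hP
      exact (ZMod.intCast_zmod_eq_zero_iff_dvd _ _).mpr (h P hP)
    let e := RingHom.quotientKerEquivOfSurjective (evalHom_surjective p)
    refine ⟨(Ideal.Quotient.lift (RingHom.ker (evalHom p)) ψ hker).comp e.symm.toRingHom,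
      fun ℓ => ?_⟩
    have h1 : e.symm (tGen p ℓ) = Ideal.Quotient.mk _ (heckeGen ℓ) := by
      rw [RingEquiv.symm_apply_eq]
      exact (evalHom_heckeGen p ℓ).symm
    show (Ideal.Quotient.lift (RingHom.ker (evalHom p)) ψ hker) (e.symm (tGen p ℓ)) = _
    rw [h1, Ideal.Quotient.lift_mk]
    show ((eisEval p (heckeGen ℓ) : ℤ) : ZMod M) = _
    rw [eisEval_heckeGen]

/-- **Kernel form.**  There is an Eisenstein hom `𝕋 →+* ZMod M` iff every Hecke polynomial killing
`S₂(Γ₀(p))` takes a value divisible by `M` at the Eisenstein system. -/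
theorem hasEisHom_iff_forall_kernel (M : ℕ) :
    HasEisHom (tGen p) (eisensteinSystem p) M ↔
      ∀ P : HeckeAlg, heckeEvalForms p 2 P = 0 →
        (M : ℤ) ∣ MvPolynomial.aeval (R := ℤ) (eisensteinSystem p) P := by
  rw [hasEisHom_iff_forall_evalHom]
  constructor
  · intro h P hP
    exact h P ((evalHom_eq_zero_iff p P).mpr hP)
  · intro h P hP
    exact h P ((evalHom_eq_zero_iff p P).mp hP)

/-- Lower-bound consumer in kernel form. -/
theorem hasEisHom_of_kernel (M : ℕ)
    (h : ∀ P : HeckeAlg, heckeEvalForms p 2 P = 0 →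
      (M : ℤ) ∣ MvPolynomial.aeval (R := ℤ) (eisensteinSystem p) P) :
    HasEisHom (tGen p) (eisensteinSystem p) M :=
  (hasEisHom_iff_forall_kernel p M).mpr h

end

end Fermat.Agent.S16.Alg.KernelForm
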